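import Mathlib

set_option autoImplicit false
open PowerSeries

namespace Fermat.Agent.S10.KL

variable {k : Type*} [Field k]

/-- Logarithmic derivative of a power series over a field. -/
noncomputable def dl (F : k⟦X⟧) : k⟦X⟧ := d⁄dX k F * F⁻¹

theorem dl_mul {F G : k⟦X⟧} (hF : constantCoeff F ≠ 0) (hG : constantCoeff G ≠ 0) :
    dl (F * G) = dl F + dl G := by
  unfold dl
  rw [Derivation.leibniz, PowerSeries.mul_inv_rev]
  have h1 := PowerSeries.mul_inv_cancel F hF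
  have h2 := PowerSeries.mul_inv_cancel G hG
  simp only [smul_eq_mul]
  linear_combination (d⁄dX k G * G⁻¹) * h1 + (d⁄dX k F * F⁻¹) * h2

theorem dl_one : dl (1 : k⟦X⟧) = 0 := by
  unfold dl
  rw [derivative_one, zero_mul]

theorem dl_C (a : k) : dl (C a : k⟦X⟧) = 0 := by
  unfold dl
  rw [derivative_C, zero_mul]

/-- Certificate lemma: if `F' ≡ c * F` modulo `X ^ m` then `dl F ≡ c` modulo `X ^ m`. -/
theorem coeff_dl_eq_of_cert {F c : k⟦X⟧} (hF : constantCoeff F ≠ 0) (m : ℕ)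
    (h : ∀ n < m, coeff n (d⁄dX k F) = coeff n (c * F)) :
    ∀ n < m, coeff n (dl F) = coeff n c := by
  have h1 : (X : k⟦X⟧) ^ m ∣ d⁄dX k F - c * F := by
    rw [X_pow_dvd_iff]
    intro n hn
    rw [map_sub, h n hn, sub_self]
  obtain ⟨H, hH⟩ := h1
  have h2 : dl F - c = X ^ m * (H * F⁻¹) := by
    unfold dl
    have h3 := PowerSeries.mul_inv_cancel F hF
    linear_combination F⁻¹ * hH + c * h3
  have h4 : (X : k⟦X⟧) ^ m ∣ dl F - c := ⟨_, h2⟩
  rw [X_pow_dvd_iff] at h4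
  intro n hn
  have := h4 n hn
  rwa [map_sub, sub_eq_zero] at this

/-- If `F ≡ G` modulo `X ^ (m + 1)` then `dl F ≡ dl G` modulo `X ^ m`. -/
theorem coeff_dl_congr {F G : k⟦X⟧} (hF : constantCoeff F ≠ 0) (m : ℕ)
    (h : (X : k⟦X⟧) ^ (m + 1) ∣ F - G) :
    ∀ n < m, coeff n (dl F) = coeff n (dl G) := by
  obtain ⟨H, hH⟩ := h
  have hG : constantCoeff G ≠ 0 := by
    have : constantCoeff (F - G) = 0 := by
      rw [hH, map_mul, map_pow, constantCoeff_X, zero_pow (Nat.succ_ne_zero m), zero_mul]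
    rw [map_sub, sub_eq_zero] at this
    rwa [← this]
  have hF' : F = G + X ^ (m + 1) * H := by rw [← hH]; ring
  have h1 := PowerSeries.mul_inv_cancel F hF
  have h2 := PowerSeries.mul_inv_cancel G hG
  have hD : d⁄dX k F = d⁄dX k G + ((m + 1 : ℕ) : k⟦X⟧) * X ^ m * H + X ^ (m + 1) * d⁄dX k H := by
    rw [hF', map_add, Derivation.leibniz, derivative_pow, derivative_X]
    simp only [smul_eq_mul, Nat.add_sub_cancel]
    ring
  have hN : d⁄dX k F * G - d⁄dX k G * F = X ^ m *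
      ((((m + 1 : ℕ) : k⟦X⟧) * H + X * d⁄dX k H) * G - d⁄dX k G * X * H) := by
    rw [hD]
    conv_lhs => rw [hF']
    ring
  have h3 : dl F - dl G = X ^ m *
      (((((m + 1 : ℕ) : k⟦X⟧) * H + X * d⁄dX k H) * G - d⁄dX k G * X * H) * (F⁻¹ * G⁻¹)) := by
    unfold dl
    have e1 : d⁄dX k F * F⁻¹ - d⁄dX k G * G⁻¹ =
        (d⁄dX k F * G - d⁄dX k G * F) * (F⁻¹ * G⁻¹) := by
      linear_combination (-(d⁄dX k F * F⁻¹)) * h2 + (d⁄dX k G * G⁻¹) * h1
    rw [e1, hN]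
    ring
  have h4 : (X : k⟦X⟧) ^ m ∣ dl F - dl G := ⟨_, h3⟩
  rw [X_pow_dvd_iff] at h4
  intro n hn
  have := h4 n hn
  rwa [map_sub, sub_eq_zero] at this

end Fermat.Agent.S10.KL
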