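import Mathlib
import Fermat.Agent.S10.Kummer.DLog

set_option autoImplicit false
open PowerSeries NumberField

namespace Fermat.Agent.S10.KL

variable (p : ℕ) [hp : Fact p.Prime]

/-- The ring hom `ℤ[X] → 𝔽_p⟦X⟧`, `X ↦ 1 + X`. -/
noncomputable def phi : Polynomial ℤ →ₐ[ℤ] (ZMod p)⟦X⟧ :=
  Polynomial.aeval (1 + PowerSeries.X)

theorem phi_X : phi p Polynomial.X = 1 + PowerSeries.X := by
  simp [phi]

theorem phi_C (n : ℤ) : phi p (Polynomial.C n) = PowerSeries.C (n : ZMod p) := by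
  simp [phi]

theorem phi_C_p : phi p (Polynomial.C (p : ℤ)) = 0 := by
  rw [phi_C]
  simp

theorem charP_powerSeries : CharP (ZMod p)⟦X⟧ p :=
  charP_of_injective_algebraMap (R := ZMod p) (A := (ZMod p)⟦X⟧)
    (FaithfulSMul.algebraMap_injective (ZMod p) (ZMod p)⟦X⟧) p

theorem phi_cyclotomic : phi p (Polynomial.cyclotomic p ℤ) = PowerSeries.X ^ (p - 1) := by
  have := charP_powerSeries p
  rw [Polynomial.cyclotomic_prime]
  have h1 : phi p (∑ i ∈ Finset.range p, Polynomial.X ^ i) =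
      ∑ i ∈ Finset.range p, (1 + PowerSeries.X : (ZMod p)⟦X⟧) ^ i := by
    simp [phi]
  rw [h1]
  have h2 := geom_sum_mul (1 + PowerSeries.X : (ZMod p)⟦X⟧) p
  rw [add_pow_char, one_pow] at h2
  have h3 : (1 : (ZMod p)⟦X⟧) + PowerSeries.X - 1 = PowerSeries.X := by ring
  have h4 : (1 : (ZMod p)⟦X⟧) + PowerSeries.X ^ p - 1 = PowerSeries.X ^ (p - 1) * PowerSeries.X := by
    rw [← pow_succ, Nat.sub_add_cancel hp.out.one_le]
    ring
  rw [h3, h4] at h2
  exact mul_right_cancel₀ PowerSeries.X_ne_zero h2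

variable (K : Type*) [Field K] [NumberField K] [IsCyclotomicExtension {p} ℚ K]

/-- The primitive `p`-th root of unity `ζ` in `𝓞 K`. -/
noncomputable def zetaInt : 𝓞 K :=
  have : NeZero p := ⟨hp.out.ne_zero⟩
  (IsCyclotomicExtension.zeta_spec p ℚ K).toInteger

theorem zetaInt_isPrimitiveRoot : IsPrimitiveRoot (zetaInt p K) p := by
  have : NeZero p := ⟨hp.out.ne_zero⟩
  exact (IsCyclotomicExtension.zeta_spec p ℚ K).toInteger_isPrimitiveRoot

theorem exists_lift (x : 𝓞 K) : ∃ f : Polynomial ℤ, Polynomial.aeval (zetaInt p K) f = x := by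
  have : NeZero p := ⟨hp.out.ne_zero⟩
  obtain ⟨f, hf⟩ := (IsCyclotomicExtension.zeta_spec p ℚ K).integralPowerBasis.exists_eq_aeval' x
  refine ⟨f, ?_⟩
  rw [hf, IsPrimitiveRoot.integralPowerBasis_gen]
  rfl

theorem cyclotomic_dvd_of_aeval_eq_zero {f : Polynomial ℤ}
    (h : Polynomial.aeval (zetaInt p K) f = 0) : Polynomial.cyclotomic p ℤ ∣ f := by
  have : NeZero p := ⟨hp.out.ne_zero⟩
  have hζ := IsCyclotomicExtension.zeta_spec p ℚ K
  rw [Polynomial.cyclotomic_eq_minpoly hζ hp.out.pos]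
  apply minpoly.isIntegrallyClosed_dvd (hζ.isIntegral hp.out.pos)
  have h2 := congrArg (algebraMap (𝓞 K) K) h
  rw [← Polynomial.aeval_algebraMap_apply, map_zero] at h2
  exact h2

theorem phi_congr {f g : Polynomial ℤ}
    (h : Polynomial.aeval (zetaInt p K) f = Polynomial.aeval (zetaInt p K) g) :
    (PowerSeries.X : (ZMod p)⟦X⟧) ^ (p - 1) ∣ phi p f - phi p g := by
  have h1 : Polynomial.aeval (zetaInt p K) (f - g) = 0 := by
    rw [map_sub, h, sub_self]
  obtain ⟨q, hq⟩ := cyclotomic_dvd_of_aeval_eq_zero p K h1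
  refine ⟨phi p q, ?_⟩
  rw [← map_sub, hq, map_mul, phi_cyclotomic]

theorem constantCoeff_phi_ne_zero {f : Polynomial ℤ}
    (hf : IsUnit (Polynomial.aeval (zetaInt p K) f)) :
    PowerSeries.constantCoeff (phi p f) ≠ 0 := by
  obtain ⟨y, hy⟩ := hf.exists_right_inv
  obtain ⟨g, hg⟩ := exists_lift p K y
  have h1 : Polynomial.aeval (zetaInt p K) (f * g) =
      Polynomial.aeval (zetaInt p K) (1 : Polynomial ℤ) := by
    rw [map_mul, hg, hy, map_one]
  obtain ⟨H, hH⟩ := phi_congr p K h1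
  have h2 : PowerSeries.constantCoeff (phi p (f * g) - phi p 1) = 0 := by
    rw [hH, map_mul, map_pow, PowerSeries.constantCoeff_X,
      zero_pow (Nat.sub_ne_zero_of_lt hp.out.one_lt), zero_mul]
  rw [map_mul, map_one, map_sub, map_mul, map_one, sub_eq_zero] at h2
  intro h0
  rw [h0, zero_mul] at h2
  exact zero_ne_one h2

/-- A chosen integer polynomial lift of an element of `𝓞 K`. -/
noncomputable def liftPoly (x : 𝓞 K) : Polynomial ℤ := (exists_lift p K x).choose

theorem liftPoly_spec (x : 𝓞 K) : Polynomial.aeval (zetaInt p K) (liftPoly p K x) = x :=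
  (exists_lift p K x).choose_spec

/-- The underlying function of the Kummer logarithmic derivative. -/
noncomputable def lamFun (u : (𝓞 K)ˣ) : Fin (p - 2) → ZMod p :=
  fun n => PowerSeries.coeff (n : ℕ) (dl (phi p (liftPoly p K (u : 𝓞 K))))

theorem lamFun_eq_of_lift (u : (𝓞 K)ˣ) (f : Polynomial ℤ)
    (hf : Polynomial.aeval (zetaInt p K) f = (u : 𝓞 K)) :
    lamFun p K u = fun n : Fin (p - 2) => PowerSeries.coeff (n : ℕ) (dl (phi p f)) := by
  funext n
  unfold lamFun
  have h1 : Polynomial.aeval (zetaInt p K) (liftPoly p K (u : 𝓞 K)) =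
      Polynomial.aeval (zetaInt p K) f := by
    rw [liftPoly_spec, hf]
  have h2 := phi_congr p K h1
  have h3 : PowerSeries.constantCoeff (phi p (liftPoly p K (u : 𝓞 K))) ≠ 0 := by
    apply constantCoeff_phi_ne_zero p K
    rw [liftPoly_spec]
    exact u.isUnit
  have h4 : p - 1 = (p - 2) + 1 := by
    have := hp.out.two_le
    omega
  rw [h4] at h2
  exact coeff_dl_congr h3 (p - 2) h2 n n.2

theorem lamFun_one : lamFun p K 1 = 0 := by
  rw [lamFun_eq_of_lift p K 1 1 (by simp)]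
  funext n
  simp [dl_one]

theorem lamFun_mul (u v : (𝓞 K)ˣ) : lamFun p K (u * v) = lamFun p K u + lamFun p K v := by
  have hu := liftPoly_spec p K (u : 𝓞 K)
  have hv := liftPoly_spec p K (v : 𝓞 K)
  rw [lamFun_eq_of_lift p K (u * v) (liftPoly p K (u : 𝓞 K) * liftPoly p K (v : 𝓞 K))
    (by rw [map_mul, hu, hv]; rfl)]
  funext n
  rw [map_mul, dl_mul, map_add]
  · rfl
  · apply constantCoeff_phi_ne_zero p K
    rw [hu]; exact u.isUnit
  · apply constantCoeff_phi_ne_zero p K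
    rw [hv]; exact v.isUnit

/-- The Kummer logarithmic derivative, as a group homomorphism. -/
noncomputable def Lam : (𝓞 K)ˣ →* Multiplicative (Fin (p - 2) → ZMod p) where
  toFun u := Multiplicative.ofAdd (lamFun p K u)
  map_one' := by rw [lamFun_one]; rfl
  map_mul' u v := by rw [lamFun_mul]; rfl

theorem Lam_apply (u : (𝓞 K)ˣ) : Lam p K u = Multiplicative.ofAdd (lamFun p K u) := rfl

/-- Units congruent to a rational integer modulo `p` have trivial logarithmic derivative. -/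
theorem lamFun_eq_zero_of_dvd (u : (𝓞 K)ˣ) (n : ℤ)
    (h : (p : 𝓞 K) ∣ (u : 𝓞 K) - n) : lamFun p K u = 0 := by
  obtain ⟨w, hw⟩ := h
  obtain ⟨g, hg⟩ := exists_lift p K w
  have hf : Polynomial.aeval (zetaInt p K) (Polynomial.C n + Polynomial.C (p : ℤ) * g) =
      (u : 𝓞 K) := by
    rw [map_add, map_mul, hg, Polynomial.aeval_C, Polynomial.aeval_C]
    simp only [eq_intCast, Int.cast_natCast]
    rw [← hw]; ring
  rw [lamFun_eq_of_lift p K u _ hf]
  funext k
  rw [map_add, map_mul, phi_C_p, zero_mul, add_zero, phi_C, dl_C]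
  simp

theorem Lam_pow_mem_ker (w : (𝓞 K)ˣ) : Lam p K (w ^ p) = 1 := by
  rw [map_pow, Lam_apply, ← ofAdd_nsmul]
  have : p • lamFun p K w = 0 := by
    funext k
    simp
  rw [this]; rfl

end Fermat.Agent.S10.KL
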