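import Mathlib

set_option autoImplicit false
open NumberField NumberField.Units

namespace Fermat.Agent.S10.KL

variable (K : Type*) [Field K] [NumberField K]

/-- The subgroup of `n`-th powers of units. -/
noncomputable def powSubgroup (n : ℕ) : Subgroup (𝓞 K)ˣ := (powMonoidHom n : (𝓞 K)ˣ →* (𝓞 K)ˣ).range

theorem mem_powSubgroup {n : ℕ} {u : (𝓞 K)ˣ} : u ∈ powSubgroup K n ↔ ∃ v : (𝓞 K)ˣ, v ^ n = u := by
  simp [powSubgroup, MonoidHom.mem_range]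

theorem exists_repr_mod_pow (n : ℕ) (hn : 0 < n) (t₀ : torsion K)
    (ht₀ : ∀ x : torsion K, x ∈ Subgroup.zpowers t₀) (x : (𝓞 K)ˣ) :
    ∃ (j : Fin n) (e : Fin (rank K) → Fin n) (w : (𝓞 K)ˣ),
      x = ((t₀ : (𝓞 K)ˣ) ^ (j : ℕ) * ∏ i, fundSystem K i ^ (e i : ℕ)) * w ^ n := by
  obtain ⟨ζe, hx, -⟩ := exist_unique_eq_mul_prod K x
  obtain ⟨m, hm⟩ := Subgroup.mem_zpowers_iff.mp (ht₀ ζe.1)
  have hn' : (n : ℤ) ≠ 0 := by exact_mod_cast hn.ne'
  have hnpos : (0 : ℤ) < n := by exact_mod_cast hn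
  have key : ∀ (g : (𝓞 K)ˣ) (a : ℤ), g ^ a = g ^ (a % n).toNat * (g ^ (a / n)) ^ n := by
    intro g a
    rw [← zpow_natCast g (a % n).toNat, Int.toNat_of_nonneg (Int.emod_nonneg a hn'),
      ← zpow_natCast (g ^ (a / n)) n, ← zpow_mul, ← zpow_add, mul_comm (a / n) (n : ℤ),
      Int.emod_add_mul_ediv]
  refine ⟨⟨(m % n).toNat, ?_⟩, fun i => ⟨(ζe.2 i % n).toNat, ?_⟩,
    (t₀ : (𝓞 K)ˣ) ^ (m / n) * ∏ i, fundSystem K i ^ (ζe.2 i / n), ?_⟩
  · have := Int.emod_lt_of_pos m hnpos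
    omega
  · have := Int.emod_lt_of_pos (ζe.2 i) hnpos
    omega
  · rw [hx]
    have h1 : ((ζe.1 : torsion K) : (𝓞 K)ˣ) = (t₀ : (𝓞 K)ˣ) ^ m := by
      rw [← hm]; simp
    rw [h1, key (t₀ : (𝓞 K)ˣ) m]
    have h2 : ∏ i, fundSystem K i ^ (ζe.2 i) =
        (∏ i, fundSystem K i ^ (ζe.2 i % n).toNat) * (∏ i, fundSystem K i ^ (ζe.2 i / n)) ^ n := by
      rw [← Finset.prod_pow, ← Finset.prod_mul_distrib]
      exact Finset.prod_congr rfl (fun i _ => key _ _)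
    rw [h2, mul_pow]
    simp only [mul_comm, mul_left_comm, mul_assoc]

theorem index_powSubgroup (n : ℕ) (hn : 0 < n) :
    (powSubgroup K n).index ≠ 0 ∧ (powSubgroup K n).index ≤ n ^ (rank K + 1) := by
  obtain ⟨t₀, ht₀⟩ := IsCyclic.exists_generator (α := torsion K)
  let g : Fin n × (Fin (rank K) → Fin n) → (𝓞 K)ˣ ⧸ powSubgroup K n := fun x =>
    QuotientGroup.mk ((t₀ : (𝓞 K)ˣ) ^ (x.1 : ℕ) * ∏ i, fundSystem K i ^ (x.2 i : ℕ))
  have hg : Function.Surjective g := by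
    intro y
    obtain ⟨x, rfl⟩ := QuotientGroup.mk_surjective y
    obtain ⟨j, e, w, hw⟩ := exists_repr_mod_pow K n hn t₀ ht₀ x
    refine ⟨(j, e), ?_⟩
    show QuotientGroup.mk _ = QuotientGroup.mk x
    rw [QuotientGroup.eq, hw, inv_mul_cancel_left]
    exact (mem_powSubgroup K).mpr ⟨w, rfl⟩
  have hfin : Finite ((𝓞 K)ˣ ⧸ powSubgroup K n) := Finite.of_surjective g hg
  have hle := Nat.card_le_card_of_surjective g hg
  have hcard : Nat.card (Fin n × (Fin (rank K) → Fin n)) = n ^ (rank K + 1) := by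
    rw [Nat.card_prod, Nat.card_fun]
    simp [pow_succ, mul_comm]
  rw [hcard] at hle
  refine ⟨?_, hle⟩
  have : Nonempty ((𝓞 K)ˣ ⧸ powSubgroup K n) := ⟨QuotientGroup.mk 1⟩
  exact (Nat.card_pos (α := (𝓞 K)ˣ ⧸ powSubgroup K n)).ne'

theorem rank_add_one_cyclotomic (p : ℕ) [hp : Fact p.Prime] (hp3 : 3 ≤ p)
    [IsCyclotomicExtension {p} ℚ K] : rank K + 1 = (p - 1) / 2 := by
  have : NeZero p := ⟨hp.out.ne_zero⟩
  have h1 := IsCyclotomicExtension.Rat.nrComplexPlaces_eq_totient_div_two p K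
  have h2 := IsCyclotomicExtension.Rat.nrRealPlaces_eq_zero (n := p) K (by omega)
  have h3 := InfinitePlace.card_eq_nrRealPlaces_add_nrComplexPlaces K
  rw [Nat.totient_prime hp.out] at h1
  unfold rank
  rw [h3, h2, h1]
  have : 1 ≤ (p - 1) / 2 := by omega
  omega

end Fermat.Agent.S10.KL
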