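import Mathlib
import Fermat.Agent.S10.Kummer.Lift
import Fermat.Agent.S10.Kummer.Units

set_option autoImplicit false
open PowerSeries NumberField

namespace Fermat.Agent.S10.KL

/-! ### Abstract linear algebra / group theory -/

theorem indep_of_cert (p d m : ℕ) (v : ℕ → ℕ → ZMod p) (cols : ℕ → ℕ)
    (W : ℕ → ℕ → ZMod p)
    (h2 : ∀ i < d, ∀ j < d,
      ∑ k ∈ Finset.range d, v i (cols k) * W k j = if i = j then 1 else 0)
    (h3 : ∀ k < d, cols k < m)
    (c : ℕ → ZMod p) (hc : ∀ n < m, ∑ i ∈ Finset.range d, c i * v i n = 0) :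
    ∀ j < d, c j = 0 := by
  intro j hj
  have e1 : c j = ∑ i ∈ Finset.range d, c i * (if i = j then 1 else 0) := by
    simp [Finset.sum_ite_eq', hj]
  have e2 : ∑ i ∈ Finset.range d, c i * (if i = j then (1 : ZMod p) else 0) =
      ∑ i ∈ Finset.range d, c i * ∑ k ∈ Finset.range d, v i (cols k) * W k j := by
    refine Finset.sum_congr rfl (fun i hi => ?_)
    rw [h2 i (Finset.mem_range.mp hi) j hj]
  have e3 : ∑ i ∈ Finset.range d, c i * ∑ k ∈ Finset.range d, v i (cols k) * W k j =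
      ∑ k ∈ Finset.range d, (∑ i ∈ Finset.range d, c i * v i (cols k)) * W k j := by
    simp_rw [Finset.mul_sum, Finset.sum_mul]
    rw [Finset.sum_comm]
    refine Finset.sum_congr rfl (fun k _ => Finset.sum_congr rfl (fun i _ => ?_))
    ring
  rw [e1, e2, e3]
  refine Finset.sum_eq_zero (fun k hk => ?_)
  rw [hc (cols k) (h3 k (Finset.mem_range.mp hk)), zero_mul]

theorem ker_le_of_indep {E : Type*} [CommGroup E] (p d m : ℕ) [hp : Fact p.Prime]
    (L : E →* Multiplicative (Fin m → ZMod p)) (P : Subgroup E) (hP : P ≤ L.ker)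
    (hidx : P.index ≠ 0) (hidx2 : P.index ≤ p ^ d) (e : ℕ → E)
    (indep : ∀ c : ℕ → ZMod p,
      (∑ i ∈ Finset.range d, c i • Multiplicative.toAdd (L (e i)) = 0) → ∀ j < d, c j = 0) :
    L.ker ≤ P := by
  -- the map from coefficient vectors to the range of `L`
  let Ψ : (Fin d → ZMod p) → L.range := fun c =>
    ⟨L (∏ i : Fin d, e i ^ (c i).val), ⟨_, rfl⟩⟩
  have hΨ : ∀ c : Fin d → ZMod p, Multiplicative.toAdd (L (∏ i : Fin d, e i ^ (c i).val)) =
      ∑ i : Fin d, c i • Multiplicative.toAdd (L (e (i : ℕ))) := by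
    intro c
    rw [map_prod, toAdd_prod]
    refine Finset.sum_congr rfl (fun i _ => ?_)
    rw [map_pow, toAdd_pow]
    funext n
    simp
  have hinj : Function.Injective Ψ := by
    intro c c' h
    have h1 : L (∏ i : Fin d, e i ^ (c i).val) = L (∏ i : Fin d, e i ^ (c' i).val) :=
      congrArg Subtype.val h
    have h2 := congrArg Multiplicative.toAdd h1
    rw [hΨ, hΨ] at h2
    -- extend `c - c'` to a function on `ℕ`
    let c₀ : ℕ → ZMod p := fun i => if h : i < d then c ⟨i, h⟩ - c' ⟨i, h⟩ else 0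
    have h3 : ∑ i ∈ Finset.range d, c₀ i • Multiplicative.toAdd (L (e i)) = 0 := by
      rw [← Fin.sum_univ_eq_sum_range (fun i => c₀ i • Multiplicative.toAdd (L (e i))) d]
      have : ∀ i : Fin d, c₀ (i : ℕ) = c i - c' i := by
        intro i
        simp [c₀, i.2]
      simp_rw [this, sub_smul, Finset.sum_sub_distrib]
      rw [h2, sub_self]
    have h4 := indep c₀ h3
    funext i
    have h5 := h4 i i.2
    simp only [c₀, i.2, dif_pos] at h5
    exact sub_eq_zero.mp h5
  have hcard : p ^ d ≤ Nat.card L.range := by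
    have := Nat.card_le_card_of_injective Ψ hinj
    rwa [Nat.card_fun, Nat.card_fin, Nat.card_zmod] at this
  rw [← Subgroup.index_ker] at hcard
  have hmul := Subgroup.relIndex_mul_index hP
  rw [← Subgroup.relIndex_eq_one]
  have hpos : 0 < p ^ d := pow_pos hp.out.pos d
  have hr0 : P.relIndex L.ker ≠ 0 := by
    intro h0
    rw [h0, zero_mul] at hmul
    exact hidx hmul.symm
  have hr1 : P.relIndex L.ker * p ^ d ≤ 1 * p ^ d := by
    calc P.relIndex L.ker * p ^ d ≤ P.relIndex L.ker * L.ker.index :=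
          Nat.mul_le_mul_left _ hcard
      _ = P.index := hmul
      _ ≤ 1 * p ^ d := by rw [one_mul]; exact hidx2
  have hr2 := Nat.le_of_mul_le_mul_right hr1 hpos
  omega

/-! ### The explicit units and their logarithmic derivatives -/

variable (p : ℕ) [hp : Fact p.Prime]

/-- Coefficients (as natural numbers) of `1 + X` (index `0`) and of
`∑ j < i + 1, (1 + X) ^ j` (index `i ≥ 1`). -/
def coeffN (i n : ℕ) : ℕ := if i = 0 then Nat.choose 1 n else Nat.choose (i + 1) (n + 1)

theorem one_add_X_eq_mk :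
    (1 + PowerSeries.X : (ZMod p)⟦X⟧) = PowerSeries.mk (fun n => (Nat.choose 1 n : ZMod p)) := by
  ext n
  rw [PowerSeries.coeff_mk]
  rcases n with _ | _ | n
  · simp
  · simp [PowerSeries.coeff_X, PowerSeries.coeff_one]
  · simp [PowerSeries.coeff_X, PowerSeries.coeff_one, Nat.choose_eq_zero_of_lt]

theorem coeff_one_add_X_pow (j n : ℕ) :
    PowerSeries.coeff n ((1 + PowerSeries.X : (ZMod p)⟦X⟧) ^ j) = (Nat.choose j n : ZMod p) := by
  have h : ((1 + PowerSeries.X : (ZMod p)⟦X⟧) ^ j) =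
      (((1 + Polynomial.X : Polynomial (ZMod p)) ^ j : Polynomial (ZMod p)) : (ZMod p)⟦X⟧) := by
    simp
  rw [h, Polynomial.coeff_coe, Polynomial.coeff_one_add_X_pow]

theorem geom_sum_one_add_X_eq_mk (a : ℕ) :
    ∑ j ∈ Finset.range a, (1 + PowerSeries.X : (ZMod p)⟦X⟧) ^ j =
      PowerSeries.mk (fun n => (Nat.choose a (n + 1) : ZMod p)) := by
  ext n
  rw [PowerSeries.coeff_mk, map_sum]
  simp_rw [coeff_one_add_X_pow]
  induction a with
  | zero => simp
  | succ a ih =>
    rw [Finset.sum_range_succ, ih, Nat.choose_succ_succ' a n]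
    push_cast
    ring

variable (K : Type*) [Field K] [NumberField K] [IsCyclotomicExtension {p} ℚ K]

/-- `ζ` as a unit. -/
noncomputable def zetaUnit : (𝓞 K)ˣ :=
  ((zetaInt_isPrimitiveRoot p K).isUnit hp.out.ne_zero).unit

/-- The cyclotomic unit `1 + ζ + ⋯ + ζ ^ (a - 1)` (or `1` if `a` is not prime to `p`). -/
noncomputable def cycUnit (a : ℕ) : (𝓞 K)ˣ :=
  if h : a.Coprime p then
    ((zetaInt_isPrimitiveRoot p K).geom_sum_isUnit hp.out.two_le h).unit
  else 1

theorem coe_zetaUnit : ((zetaUnit p K : (𝓞 K)ˣ) : 𝓞 K) = zetaInt p K := rfl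

theorem coe_cycUnit (a : ℕ) (h : a.Coprime p) :
    ((cycUnit p K a : (𝓞 K)ˣ) : 𝓞 K) = ∑ j ∈ Finset.range a, zetaInt p K ^ j := by
  unfold cycUnit
  rw [dif_pos h]
  rfl

/-- The family of units: `ζ`, `ε₂`, `ε₃`, … -/
noncomputable def kUnit (i : ℕ) : (𝓞 K)ˣ := if i = 0 then zetaUnit p K else cycUnit p K (i + 1)

/-- The image under `phi` of the chosen lift of `kUnit i`. -/
theorem exists_lift_kUnit (i : ℕ) (hi : i + 1 < p) :
    ∃ f : Polynomial ℤ, Polynomial.aeval (zetaInt p K) f = (kUnit p K i : 𝓞 K) ∧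
      phi p f = PowerSeries.mk (fun n => (coeffN i n : ZMod p)) := by
  by_cases h0 : i = 0
  · subst h0
    refine ⟨Polynomial.X, ?_, ?_⟩
    · simp [kUnit, coe_zetaUnit]
    · rw [phi_X, one_add_X_eq_mk]
      simp [coeffN]
  · have hcop : (i + 1).Coprime p := by
      rw [Nat.coprime_comm, Nat.Prime.coprime_iff_not_dvd hp.out]
      intro hdvd
      have := Nat.le_of_dvd (Nat.succ_pos i) hdvd
      omega
    refine ⟨∑ j ∈ Finset.range (i + 1), Polynomial.X ^ j, ?_, ?_⟩
    · simp [kUnit, h0, coe_cycUnit p K (i + 1) hcop]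
    · rw [map_sum]
      simp_rw [map_pow, phi_X]
      rw [geom_sum_one_add_X_eq_mk]
      simp [coeffN, h0]

/-- The certificate conditions, stated over `ℕ` so that they can be checked by `decide`. -/
abbrev Check1 (cs : ℕ → ℕ → ℕ) : Prop :=
  ∀ i < (p - 1) / 2, ∀ n < p - 2,
    ((n + 1) * coeffN i (n + 1)) % p =
      (∑ x ∈ Finset.HasAntidiagonal.antidiagonal n, cs i x.1 * coeffN i x.2) % p

abbrev Check2 (cs : ℕ → ℕ → ℕ) (cols : ℕ → ℕ) (W : ℕ → ℕ → ℕ) : Prop :=
  ∀ i < (p - 1) / 2, ∀ j < (p - 1) / 2,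
    (∑ k ∈ Finset.range ((p - 1) / 2), cs i (cols k) * W k j) % p = if i = j then 1 else 0

abbrev Check3 (cols : ℕ → ℕ) : Prop := ∀ k < (p - 1) / 2, cols k < p - 2

theorem lamFun_kUnit (cs : ℕ → ℕ → ℕ) (h1 : Check1 p cs) (i : ℕ) (hi : i < (p - 1) / 2) :
    lamFun p K (kUnit p K i) = fun n : Fin (p - 2) => (cs i n : ZMod p) := by
  have hi' : i + 1 < p := by omega
  obtain ⟨f, hf, hφ⟩ := exists_lift_kUnit p K i hi'
  rw [lamFun_eq_of_lift p K _ f hf]
  funext n
  have hc : PowerSeries.constantCoeff (phi p f) ≠ 0 := by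
    apply constantCoeff_phi_ne_zero p K
    rw [hf]
    exact (kUnit p K i).isUnit
  have key := coeff_dl_eq_of_cert (F := phi p f)
    (c := PowerSeries.mk (fun n => (cs i n : ZMod p))) hc (p - 2) ?_ n n.2
  · rw [key, PowerSeries.coeff_mk]
  · intro n hn
    rw [hφ, PowerSeries.coeff_derivative, PowerSeries.coeff_mk, PowerSeries.coeff_mul]
    simp_rw [PowerSeries.coeff_mk]
    have h := h1 i hi n hn
    have h' := (ZMod.natCast_eq_natCast_iff' _ _ p).mpr h
    push_cast at h'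
    rw [← h']
    ring

/-- **Kummer's lemma** from a certificate. -/
theorem kummer_of_cert (hp5 : 5 ≤ p) (cs : ℕ → ℕ → ℕ) (cols : ℕ → ℕ) (W : ℕ → ℕ → ℕ)
    (h1 : Check1 p cs) (h2 : Check2 p cs cols W) (h3 : Check3 p cols)
    (u : (𝓞 K)ˣ) (n : ℤ) (h : (p : 𝓞 K) ∣ (u : 𝓞 K) - n) :
    ∃ v : (𝓞 K)ˣ, u = v ^ p := by
  have hidx := index_powSubgroup K p hp.out.pos
  rw [rank_add_one_cyclotomic K p (by omega)] at hidx
  have hP : powSubgroup K p ≤ (Lam p K).ker := by
    intro x hx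
    obtain ⟨w, rfl⟩ := (mem_powSubgroup K).mp hx
    exact Lam_pow_mem_ker p K w
  have hker : (Lam p K).ker ≤ powSubgroup K p := by
    apply ker_le_of_indep p ((p - 1) / 2) (p - 2) (Lam p K) (powSubgroup K p) hP hidx.1 hidx.2
      (kUnit p K)
    intro c hc
    apply indep_of_cert p ((p - 1) / 2) (p - 2) (fun i n => (cs i n : ZMod p)) cols
      (fun k j => (W k j : ZMod p)) ?_ h3 c ?_
    · intro i hi j hj
      have := h2 i hi j hj
      have h' : ((∑ k ∈ Finset.range ((p - 1) / 2), cs i (cols k) * W k j : ℕ) : ZMod p) =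
          ((if i = j then 1 else 0 : ℕ) : ZMod p) := by
        rw [← this, ZMod.natCast_mod]
      push_cast at h'
      rw [h']
    · intro m hm
      have := congrFun hc ⟨m, hm⟩
      rw [Finset.sum_apply, Pi.zero_apply] at this
      rw [← this]
      refine Finset.sum_congr rfl (fun i hi => ?_)
      rw [Lam_apply, toAdd_ofAdd, lamFun_kUnit p K cs h1 i (Finset.mem_range.mp hi)]
      simp
  have hu : u ∈ (Lam p K).ker := by
    rw [MonoidHom.mem_ker, Lam_apply, lamFun_eq_zero_of_dvd p K u n h]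
    rfl
  obtain ⟨v, hv⟩ := (mem_powSubgroup K).mp (hker hu)
  exact ⟨v, hv.symm⟩

end Fermat.Agent.S10.KL
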