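import Mathlib
import Fermat.Agent.S10.Kummer.Main

set_option autoImplicit false

namespace Fermat.Agent.S10.KL

/-- Read an entry of a list of lists of naturals (default `0`). -/
def getNN (l : List (List ℕ)) (i j : ℕ) : ℕ := (l.getD i []).getD j 0

/-! ### Certificate for `p = 5` -/

def cs_five : ℕ → ℕ → ℕ := getNN [[1, 4, 1], [3, 1, 2]]

def cols_five : ℕ → ℕ := fun k => ([0, 1] : List ℕ).getD k 0

def W_five : ℕ → ℕ → ℕ := getNN [[4, 4], [3, 4]]

theorem check1_five : Check1 5 cs_five := by decide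

theorem check2_five : Check2 5 cs_five cols_five W_five := by decide

theorem check3_five : Check3 5 cols_five := by decide

/-! ### Certificate for `p = 7` -/

def cs_seven : ℕ → ℕ → ℕ := getNN [[1, 6, 1, 6, 1], [4, 5, 1, 3, 2], [1, 2, 0, 4, 3]]

def cols_seven : ℕ → ℕ := fun k => ([0, 1, 3] : List ℕ).getD k 0

def W_seven : ℕ → ℕ → ℕ := getNN [[0, 3, 3], [5, 4, 0], [1, 6, 3]]

theorem check1_seven : Check1 7 cs_seven := by decide

theorem check2_seven : Check2 7 cs_seven cols_seven W_seven := by decide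

theorem check3_seven : Check3 7 cols_seven := by decide

/-! ### Certificate for `p = 11` -/

def cs_eleven : ℕ → ℕ → ℕ := getNN [[1, 10, 1, 10, 1, 10, 1, 10, 1], [6, 8, 7, 2, 10, 6, 8, 7, 2], [1, 7, 0, 5, 6, 7, 2, 3, 0], [7, 8, 1, 8, 7, 6, 4, 0, 0], [2, 0, 10, 3, 0, 6, 5, 6, 5]]

def cols_eleven : ℕ → ℕ := fun k => ([0, 1, 3, 5, 7] : List ℕ).getD k 0

def W_eleven : ℕ → ℕ → ℕ := getNN [[9, 6, 7, 0, 2], [1, 8, 7, 4, 2], [9, 0, 1, 3, 1], [0, 8, 5, 0, 1], [9, 1, 5, 4, 9]]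

theorem check1_eleven : Check1 11 cs_eleven := by decide

theorem check2_eleven : Check2 11 cs_eleven cols_eleven W_eleven := by decide

theorem check3_eleven : Check3 11 cols_eleven := by decide

/-! ### Certificate for `p = 13` -/

def cs_thirteen : ℕ → ℕ → ℕ := getNN [[1, 12, 1, 12, 1, 12, 1, 12, 1, 12, 1], [7, 3, 5, 4, 11, 1, 6, 10, 8, 9, 2], [1, 4, 0, 3, 10, 2, 12, 9, 0, 10, 3], [8, 3, 11, 11, 1, 1, 11, 5, 4, 9, 4], [2, 0, 12, 6, 0, 2, 11, 4, 7, 3, 5], [9, 8, 3, 8, 9, 1, 6, 7, 6, 7, 6]]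

def cols_thirteen : ℕ → ℕ := fun k => ([0, 1, 3, 5, 7, 9] : List ℕ).getD k 0

def W_thirteen : ℕ → ℕ → ℕ := getNN [[1, 10, 12, 7, 4, 4], [3, 2, 12, 11, 2, 1], [3, 10, 2, 9, 2, 2], [9, 7, 4, 9, 7, 11], [7, 11, 0, 6, 1, 1], [4, 6, 7, 11, 5, 2]]

theorem check1_thirteen : Check1 13 cs_thirteen := by decide

theorem check2_thirteen : Check2 13 cs_thirteen cols_thirteen W_thirteen := by decide

theorem check3_thirteen : Check3 13 cols_thirteen := by decide

end Fermat.Agent.S10.KL
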